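import Fermat.Agent.Row24.Cech.Finite
import Mathlib.Algebra.Polynomial.Basis
import Mathlib.Algebra.Module.LocalizedModule.Basic
import Mathlib.RingTheory.Finiteness.Projective

/-!
# Charts from projective modules over polynomial rings
-/

set_option autoImplicit false

noncomputable section

open TensorProduct LinearMap Polynomial

namespace Fermat.Agent.Row24

universe u v

variable {A : Type u} [CommRing A]

/-- Projectivity is transitive. -/
theorem projective_trans (S : Type*) [CommRing S] [Algebra A S] [Module.Projective A S]
    (M : Type*) [AddCommGroup M] [Module A M] [Module S M] [IsScalarTower A S M]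
    [Module.Projective S M] : Module.Projective A M := by
  classical
  have : Module.Projective A (M →₀ S) :=
    Module.Projective.of_equiv (finsuppLequivDFinsupp A).symm
  obtain ⟨s, hs⟩ := (Module.projective_def'.1 ‹Module.Projective S M›)
  exact Module.Projective.of_split (s.restrictScalars A)
    ((Finsupp.linearCombination S (id : M → M)).restrictScalars A)
    (LinearMap.ext fun m => LinearMap.congr_fun hs m)

variable {M : Type v} [AddCommGroup M] [Module A M] [Module A[X] M] [IsScalarTower A A[X] M]

variable (A M) in
/-- Multiplication by the variable. -/
def mulX : Module.End A M := DistribSMul.toLinearMap A M (X : A[X])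

@[simp] theorem mulX_apply (m : M) : mulX A M m = (X : A[X]) • m := rfl

theorem aeval_mulX (p : A[X]) (m : M) : aeval (mulX A M) p m = p • m := by
  induction p using Polynomial.induction_on generalizing m with
  | C a => rw [aeval_C, Module.algebraMap_end_apply, ← algebraMap_smul A[X] a m]; rfl
  | add p q hp hq => rw [map_add, LinearMap.add_apply, hp, hq, add_smul]
  | monomial k a ih =>
    rw [pow_succ, ← mul_assoc, map_mul, Module.End.mul_apply, ih, aeval_X, mulX_apply, smul_smul]

variable (A M) in
/-- Coordinates of a finite projective module over `A[X]`. -/
theorem nonempty_coords [Module.Finite A[X] M] [Module.Projective A[X] M] :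
    Nonempty (Coords (mulX A M)) := by
  classical
  obtain ⟨n, f, hf⟩ := Module.Finite.exists_fin' A[X] M
  obtain ⟨g, hg⟩ := Module.projective_lifting_property f LinearMap.id hf
  refine ⟨⟨n, fun i => f (Pi.single i 1),
    fun i => ((LinearMap.proj i).comp g).restrictScalars A, fun i m => ?_, fun m => ?_⟩⟩
  · show g ((X : A[X]) • m) i = X * g m i
    rw [map_smul, Pi.smul_apply, smul_eq_mul]
  · simp only [aeval_mulX, ← map_smul, ← map_sum]
    conv_rhs => rw [show m = f (g m) from (LinearMap.congr_fun hg m).symm]
    refine congrArg f ?_
    funext j
    simp [Finset.sum_apply, Pi.single_apply]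

end Fermat.Agent.Row24

end
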