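import Fermat.Agent.Row24.TwoTerm.Basic
import Mathlib.Algebra.Polynomial.Laurent
import Mathlib.LinearAlgebra.TensorProduct.Prod

/-!
# The Čech complex of two charts has finite cohomology

Over `A`: `M₁` a module over `A[x]`, `M₂` over `A[y]`, both finite with coordinates, mapping to
`N`, where `x` is invertible with inverse `y`, `N = M₁[1/x] = M₂[1/y]`. Then the complex
`M₁ × M₂ → N` has finite cohomology.
-/

set_option autoImplicit false

noncomputable section

open TensorProduct LinearMap Polynomial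

namespace Fermat.Agent.Row24

universe u v w

variable {A : Type u} [CommRing A] {M₁ M₂ N : Type v} [AddCommGroup M₁] [Module A M₁]
  [AddCommGroup M₂] [Module A M₂] [AddCommGroup N] [Module A N]

/-- Finitely many generators and coordinates for an `A[x]`-module, given as an endomorphism. -/
structure Coords (x : Module.End A M₁) where
  n : ℕ
  gen : Fin n → M₁
  coord : Fin n → (M₁ →ₗ[A] A[X])
  coord_mul : ∀ i m, coord i (x m) = X * coord i m
  sum_eq : ∀ m, ∑ i, aeval x (coord i m) (gen i) = m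

/-- The differential of the two charts. -/
def cechDiff (r₁ : M₁ →ₗ[A] N) (r₂ : M₂ →ₗ[A] N) : M₁ × M₂ →ₗ[A] N := r₁.coprod (-r₂)

@[simp] theorem cechDiff_apply (r₁ : M₁ →ₗ[A] N) (r₂ : M₂ →ₗ[A] N) (p : M₁ × M₂) :
    cechDiff r₁ r₂ p = r₁ p.1 - r₂ p.2 := by
  simp [cechDiff, sub_eq_add_neg]

namespace Coords

variable {x : Module.End A M₁} (c : Coords x)

theorem coord_pow (i : Fin c.n) (k : ℕ) (m : M₁) :
    c.coord i ((x ^ k) m) = X ^ k * c.coord i m := by
  induction k with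
  | zero => simp
  | succ k ih => rw [pow_succ', Module.End.mul_apply, c.coord_mul, ih, pow_succ', mul_assoc]

/-- The elements whose coordinates have degree at most `D`. -/
theorem exists_fg_of_natDegree_le (D : ℕ) : ∃ V : Submodule A M₁, V.FG ∧
    ∀ m, (∀ i, (c.coord i m).natDegree ≤ D) → m ∈ V := by
  classical
  refine ⟨Submodule.span A (Set.range fun p : Fin c.n × Fin (D + 1) => (x ^ (p.2 : ℕ)) (c.gen p.1)),
    Submodule.fg_span (Set.finite_range _), fun m hm => ?_⟩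
  rw [← c.sum_eq m]
  refine Submodule.sum_mem _ fun i _ => ?_
  rw [aeval_eq_sum_range' (Nat.lt_succ_of_le (hm i)), LinearMap.sum_apply]
  refine Submodule.sum_mem _ fun j hj => ?_
  rw [LinearMap.smul_apply]
  exact Submodule.smul_mem _ _
    (Submodule.subset_span ⟨(i, ⟨j, Finset.mem_range.1 hj⟩), rfl⟩)

end Coords

variable {x : Module.End A M₁} {y : Module.End A M₂} {X₁₂ : N ≃ₗ[A] N} {r₁ : M₁ →ₗ[A] N}
  {r₂ : M₂ →ₗ[A] N}

/-- The compatibilities of the two charts. -/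
structure IsTwoCharts (x : Module.End A M₁) (y : Module.End A M₂) (X₁₂ : N ≃ₗ[A] N)
    (r₁ : M₁ →ₗ[A] N) (r₂ : M₂ →ₗ[A] N) : Prop where
  comm₁ : ∀ m, r₁ (x m) = X₁₂ (r₁ m)
  comm₂ : ∀ m, r₂ (y m) = X₁₂.symm (r₂ m)
  surj₁ : ∀ z, ∃ k : ℕ, ∃ m, (X₁₂ ^ k) z = r₁ m
  surj₂ : ∀ z, ∃ k : ℕ, ∃ m, (X₁₂.symm ^ k) z = r₂ m
  inj₁ : Function.Injective r₁
  inj₂ : Function.Injective r₂

namespace IsTwoCharts

variable (h : IsTwoCharts x y X₁₂ r₁ r₂)
include h

theorem symm : IsTwoCharts y x X₁₂.symm r₂ r₁ where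
  comm₁ := h.comm₂
  comm₂ := h.comm₁
  surj₁ := h.surj₂
  surj₂ := h.surj₁
  inj₁ := h.inj₂
  inj₂ := h.inj₁

theorem comm₁_pow (k : ℕ) (m : M₁) : r₁ ((x ^ k) m) = (X₁₂ ^ k) (r₁ m) := by
  induction k with
  | zero => simp
  | succ k ih => rw [pow_succ', Module.End.mul_apply, h.comm₁, ih, pow_succ']; rfl

theorem comm₂_pow (k : ℕ) (m : M₂) : r₂ ((y ^ k) m) = (X₁₂.symm ^ k) (r₂ m) :=
  h.symm.comm₁_pow k m

/-- A bound on the first component of preimages of a finitely generated submodule. -/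
theorem exists_fg_fst (c₁ : Coords x) (c₂ : Coords y) {S : Submodule A N} (hS : S.FG) :
    ∃ V : Submodule A M₁, V.FG ∧ ∀ m n, r₁ m - r₂ n ∈ S → m ∈ V := by
  classical
  obtain ⟨l, s, hs⟩ := Submodule.fg_iff_exists_fin_generating_family.1 hS
  let w : Fin c₂.n ⊕ Fin l → N := Sum.elim (fun j => r₂ (c₂.gen j)) s
  have hw : ∀ a, ∃ k : ℕ, ∃ u, (X₁₂ ^ k) (w a) = r₁ u := fun a => h.surj₁ (w a)
  choose k u hu using hw
  set L := Finset.univ.sup k with hL
  have hu' : ∀ a, (X₁₂ ^ L) (w a) = r₁ ((x ^ (L - k a)) (u a)) := fun a => by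
    rw [h.comm₁_pow, ← hu a, ← LinearEquiv.mul_apply, ← pow_add,
      Nat.sub_add_cancel (Finset.le_sup (Finset.mem_univ a))]
  let deg : Fin c₂.n ⊕ Fin l → ℕ := fun a =>
    Finset.univ.sup fun i => (c₁.coord i ((x ^ (L - k a)) (u a))).natDegree
  set D := Finset.univ.sup deg with hD
  obtain ⟨V, hV, hmem⟩ := c₁.exists_fg_of_natDegree_le D
  refine ⟨V, hV, fun m n hmn => hmem m fun i => ?_⟩
  rw [← hs, Submodule.mem_span_range_iff_exists_fun] at hmn
  obtain ⟨b, hb⟩ := hmn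
  obtain ⟨T, hT⟩ : ∃ T, ∀ j, (c₂.coord j n).natDegree ≤ T :=
    ⟨Finset.univ.sup fun j => (c₂.coord j n).natDegree, fun j =>
      Finset.le_sup (f := fun j => (c₂.coord j n).natDegree) (Finset.mem_univ j)⟩
  have hn : r₂ n = ∑ j, ∑ t ∈ Finset.range (T + 1),
      (c₂.coord j n).coeff t • (X₁₂.symm ^ t) (w (Sum.inl j)) := by
    conv_lhs => rw [← c₂.sum_eq n]
    rw [map_sum]
    refine Finset.sum_congr rfl fun j _ => ?_
    rw [aeval_eq_sum_range' (Nat.lt_succ_of_le (hT j)), LinearMap.sum_apply, map_sum]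
    refine Finset.sum_congr rfl fun t _ => ?_
    rw [LinearMap.smul_apply, map_smul, h.comm₂_pow]
    rfl
  have hm : r₁ m = (∑ j, b j • w (Sum.inr j)) + r₂ n := eq_add_of_sub_eq hb.symm
  have hXX : ∀ t ≤ T, ∀ z, (X₁₂ ^ (T + L)) ((X₁₂.symm ^ t) z) = (X₁₂ ^ (T - t)) ((X₁₂ ^ L) z) := by
    intro t ht z
    rw [show T + L = T - t + (L + t) by omega, pow_add, LinearEquiv.mul_apply, pow_add,
      LinearEquiv.mul_apply]
    refine congrArg _ (congrArg _ ?_)
    rw [← LinearEquiv.mul_apply, show X₁₂.symm = X₁₂⁻¹ from rfl, inv_pow, mul_inv_cancel]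
    rfl
  have key : (x ^ (T + L)) m = (∑ j, b j • (x ^ T) ((x ^ (L - k (.inr j))) (u (.inr j)))) +
      ∑ j, ∑ t ∈ Finset.range (T + 1),
        (c₂.coord j n).coeff t • (x ^ (T - t)) ((x ^ (L - k (.inl j))) (u (.inl j))) := by
    apply h.inj₁
    rw [h.comm₁_pow, hm, hn, map_add, map_add, map_sum, map_sum, map_sum, map_sum]
    congr 1
    · refine Finset.sum_congr rfl fun j _ => ?_
      rw [map_smul, map_smul, h.comm₁_pow, ← hu', ← LinearEquiv.mul_apply, ← pow_add]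
    · refine Finset.sum_congr rfl fun j _ => ?_
      rw [map_sum, map_sum]
      refine Finset.sum_congr rfl fun t ht => ?_
      rw [map_smul, map_smul, h.comm₁_pow, ← hu', hXX t (Nat.lt_succ_iff.1 (Finset.mem_range.1 ht))]
  have hdeg : ∀ a : Fin c₂.n ⊕ Fin l, ∀ e ≤ T,
      (c₁.coord i ((x ^ e) ((x ^ (L - k a)) (u a)))).natDegree ≤ T + D := fun a e he => by
    rw [c₁.coord_pow]
    refine natDegree_mul_le.trans (add_le_add ((natDegree_X_pow_le e).trans he) ?_)
    exact le_trans (Finset.le_sup (f := fun i => (c₁.coord i ((x ^ (L - k a)) (u a))).natDegree)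
      (Finset.mem_univ i)) (Finset.le_sup (f := deg) (Finset.mem_univ a))
  have hle : (c₁.coord i ((x ^ (T + L)) m)).natDegree ≤ T + D := by
    rw [key, map_add, map_sum, map_sum]
    refine natDegree_add_le_of_degree_le (natDegree_sum_le_of_forall_le _ _ fun j _ => ?_)
      (natDegree_sum_le_of_forall_le _ _ fun j _ => ?_)
    · rw [map_smul]; exact (natDegree_smul_le _ _).trans (hdeg _ T le_rfl)
    · rw [map_sum]
      refine natDegree_sum_le_of_forall_le _ _ fun t _ => ?_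
      rw [map_smul]; exact (natDegree_smul_le _ _).trans (hdeg _ _ (Nat.sub_le T t))
  rw [c₁.coord_pow] at hle
  rcases eq_or_ne (c₁.coord i m) 0 with h0 | h0
  · simp [h0]
  · rcases subsingleton_or_nontrivial A with hA | hA
    · exact absurd (Subsingleton.elim _ _) h0
    rw [mul_comm, natDegree_mul_X_pow _ h0] at hle
    omega

theorem finite_coker (c₁ : Coords x) :
    Module.Finite A (N ⧸ range (cechDiff r₁ r₂)) := by
  classical
  choose e u hu using fun i => h.surj₂ (r₁ (c₁.gen i))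
  set L := Finset.univ.sup e with hL
  set R := range (cechDiff r₁ r₂)
  let G : Submodule A (N ⧸ R) := Submodule.span A (Set.range fun p : Fin c₁.n × Fin (L + 1) =>
    R.mkQ ((X₁₂.symm ^ (p.2 : ℕ)) (r₁ (c₁.gen p.1))))
  have hr₁ : ∀ m, r₁ m ∈ R := fun m => ⟨(m, 0), by simp⟩
  have hr₂ : ∀ m, r₂ m ∈ R := fun m => ⟨(0, -m), by simp⟩
  have hterm : ∀ (i : Fin c₁.n) (j k : ℕ),
      R.mkQ ((X₁₂.symm ^ k) ((X₁₂ ^ j) (r₁ (c₁.gen i)))) ∈ G := by
    intro i j k
    have hinv : X₁₂.symm = X₁₂⁻¹ := rfl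
    rcases le_total k j with hkj | hkj
    · have e1 : (X₁₂.symm ^ k) ((X₁₂ ^ j) (r₁ (c₁.gen i))) = r₁ ((x ^ (j - k)) (c₁.gen i)) := by
        rw [h.comm₁_pow, ← LinearEquiv.mul_apply]
        congr 1
        rw [hinv, inv_pow, inv_mul_eq_iff_eq_mul, ← pow_add, Nat.add_sub_cancel' hkj]
      rw [e1, Submodule.mkQ_apply, (Submodule.Quotient.mk_eq_zero R).2 (hr₁ _)]
      exact zero_mem _
    · have e1 : (X₁₂.symm ^ k) ((X₁₂ ^ j) (r₁ (c₁.gen i))) =
          (X₁₂.symm ^ (k - j)) (r₁ (c₁.gen i)) := by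
        rw [← LinearEquiv.mul_apply]
        congr 1
        rw [hinv, inv_pow, inv_pow, inv_mul_eq_iff_eq_mul, eq_mul_inv_iff_mul_eq, ← pow_add,
          Nat.add_sub_cancel' hkj]
      rw [e1]
      rcases le_or_gt (k - j) L with hL' | hL'
      · exact Submodule.subset_span ⟨(i, ⟨k - j, by omega⟩), rfl⟩
      · have hei : e i ≤ L := Finset.le_sup (Finset.mem_univ i)
        have e2 : (X₁₂.symm ^ (k - j)) (r₁ (c₁.gen i)) =
            r₂ ((y ^ (k - j - e i)) (u i)) := by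
          rw [h.comm₂_pow, ← hu i, ← LinearEquiv.mul_apply, ← pow_add]
          congr 2
          omega
        rw [e2, Submodule.mkQ_apply, (Submodule.Quotient.mk_eq_zero R).2 (hr₂ _)]
        exact zero_mem _
  suffices hG : G = ⊤ by
    refine Module.finite_def.2 ?_
    rw [← hG]
    exact Submodule.fg_span (Set.finite_range _)
  refine eq_top_iff.2 fun q _ => ?_
  obtain ⟨z, rfl⟩ := Submodule.Quotient.mk_surjective R q
  obtain ⟨k, m, hm⟩ := h.surj₁ z
  have hz : z = (X₁₂.symm ^ k) (r₁ m) := by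
    rw [← hm, ← LinearEquiv.mul_apply, show X₁₂.symm = X₁₂⁻¹ from rfl, inv_pow, inv_mul_cancel]
    rfl
  rw [hz, ← c₁.sum_eq m, map_sum, map_sum]
  show R.mkQ _ ∈ G
  rw [map_sum]
  refine Submodule.sum_mem _ fun i _ => ?_
  rw [aeval_eq_sum_range, LinearMap.sum_apply, map_sum, map_sum, map_sum]
  refine Submodule.sum_mem _ fun j _ => ?_
  rw [LinearMap.smul_apply, map_smul, map_smul, map_smul, h.comm₁_pow]
  exact Submodule.smul_mem _ _ (hterm i j k)

/-- **Finiteness of the cohomology of two charts.** -/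
theorem isFiniteComplex (c₁ : Coords x) (c₂ : Coords y) : IsFiniteComplex (cechDiff r₁ r₂) where
  finite_coker := h.finite_coker c₁
  fg_comap S hS := by
    obtain ⟨V₁, hV₁, h₁⟩ := h.exists_fg_fst c₁ c₂ hS
    obtain ⟨V₂, hV₂, h₂⟩ := h.symm.exists_fg_fst c₂ c₁ hS
    refine ⟨V₁.prod V₂, hV₁.prod hV₂, fun p hp => ?_⟩
    rw [Submodule.mem_comap, cechDiff_apply] at hp
    exact ⟨h₁ _ _ hp, h₂ _ p.1 (by rw [← neg_sub]; exact S.neg_mem hp)⟩

end IsTwoCharts

end Fermat.Agent.Row24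

end
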